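import Fermat.Agent.S55.D.ProCyc
import Fermat.Agent.S55.A.Local

/-!
# S56 / TW / Abs : local cohomology at a Taylor-Wiles prime, abstract form      (helper6)

`TameD 𝓛 I φ p κ τ` : `D / I` procyclic generated by `φ`; `κ : D → ZMod p` a (level constant) homomorphism, `κ τ = 1`, `τ ∈ I`,
and every level constant map `e : D → B` (`p B = 0`) additive on `I` kills `I ∩ ker κ`.
(`D = D_q`, `q ≡ 1 mod p`, `κ` = the Kummer character of `q ^ (1/p)`.)

For a finite module `A` killed by `p` on which `I` acts trivially: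
* `card_H1_le` : `# H¹(D, A) ≤ (# H⁰(D, A))²`;
* `perp_abs`   : a cocycle `b` with values in `A' = Hom(A, ZMod p)` such that `a ∪ b` is a coboundary for all cocycles `a` is a coboundary.
-/

set_option autoImplicit false

open Fermat.Agent.S55

noncomputable section

namespace Fermat.Agent.S56.TW

structure TameD {D : Type} [Group D] (𝓛 : Lvl D) (I : Subgroup D) (φ : D) (p : ℕ) (κ : D → ZMod p)
    (τ : D) : Prop where
  pc : ProCyc 𝓛 I φ
  add : ∀ g h, κ (g * h) = κ g + κ h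
  lc : LC1 𝓛 κ
  tau_mem : τ ∈ I
  tau : κ τ = 1
  tame : ∀ {B : Type} [AddCommGroup B], (∀ b : B, p • b = 0) → ∀ e : D → B, LC1 𝓛 e →
    (∀ i ∈ I, ∀ j ∈ I, e (i * j) = e i + e j) → ∀ i ∈ I, κ i = 0 → e i = 0

variable {D : Type} [Group D] {𝓛 : Lvl D} {I : Subgroup D} {φ : D} {p : ℕ} [Fact p.Prime]
  {κ : D → ZMod p} {τ : D}

namespace TameD

theorem k_one (h : TameD 𝓛 I φ p κ τ) : κ 1 = 0 := by
  have := h.add 1 1
  rw [mul_one] at this
  exact (add_eq_left.1 this.symm)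

theorem k_inv (h : TameD 𝓛 I φ p κ τ) (g : D) : κ g⁻¹ = - κ g := by
  have := h.add g g⁻¹
  rw [mul_inv_cancel, h.k_one] at this
  exact (neg_eq_of_add_eq_zero_right this.symm).symm

theorem k_pow (h : TameD 𝓛 I φ p κ τ) (g : D) (n : ℕ) : κ (g ^ n) = n * κ g := by
  induction n with
  | zero => simp [h.k_one]
  | succ n ih => rw [pow_succ, h.add, ih]; push_cast; ring

theorem k_conj (h : TameD 𝓛 I φ p κ τ) (g i : D) : κ (g * i * g⁻¹) = κ i := by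
  rw [h.add, h.add, h.k_inv]; ring

section E

variable {B : Type} [AddCommGroup B] (hB : ∀ b : B, p • b = 0) {e : D → B} (he : LC1 𝓛 e)
  (hadd : ∀ i ∈ I, ∀ j ∈ I, e (i * j) = e i + e j)

include hB he hadd

theorem conj (h : TameD 𝓛 I φ p κ τ) (g : D) {i : D} (hi : i ∈ I) : e (g * i * g⁻¹) = e i := by
  have hc : g * i * g⁻¹ ∈ I := h.pc.normal.conj_mem i hi g
  have h1 : κ (g * i * g⁻¹ * i⁻¹) = 0 := by
    rw [h.add, h.k_conj, h.k_inv]; ring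
  have h2 := h.tame hB e he hadd _ (mul_mem hc (inv_mem hi)) h1
  have h3 := hadd (g * i * g⁻¹ * i⁻¹) (mul_mem hc (inv_mem hi)) i hi
  rw [inv_mul_cancel_right, h2, zero_add] at h3
  exact h3

theorem of_tau (h : TameD 𝓛 I φ p κ τ) (hτ : e τ = 0) {i : D} (hi : i ∈ I) : e i = 0 := by
  have hpow : ∀ n : ℕ, e (τ ^ n) = 0 := by
    intro n
    induction n with
    | zero =>
      have := hadd 1 I.one_mem 1 I.one_mem
      rw [mul_one] at this
      rw [pow_zero]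
      exact (add_eq_left.1 this.symm)
    | succ n ih => rw [pow_succ, hadd _ (pow_mem h.tau_mem n) _ h.tau_mem, ih, hτ, add_zero]
  have hm : i * (τ ^ (κ i).val)⁻¹ ∈ I := mul_mem hi (inv_mem (pow_mem h.tau_mem _))
  have h1 : κ (i * (τ ^ (κ i).val)⁻¹) = 0 := by
    rw [h.add, h.k_inv, h.k_pow, h.tau, ZMod.natCast_zmod_val]; ring
  have h2 := h.tame hB e he hadd _ hm h1
  have h3 := hadd _ hm _ (pow_mem h.tau_mem (κ i).val)
  rw [inv_mul_cancel_right, h2, hpow, add_zero] at h3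
  exact h3

end E

/-- the basic symmetry of a 2-coboundary (trivial coefficients) vanishing on `I × I` -/
theorem swap (h : TameD 𝓛 I φ p κ τ) {ρC : D →* AddMonoid.End (ZMod p)} (hρC : ∀ g x, ρC g x = x)
    {z : D → D → ZMod p} (hz : z ∈ B2 𝓛 ρC) (hI : ∀ i ∈ I, ∀ j ∈ I, z i j = 0) (g : D) {i : D}
    (hi : i ∈ I) : z g i = z (g * i * g⁻¹) g := by
  obtain ⟨f, hf, rfl⟩ := hz
  simp only [d1_apply, hρC] at hI ⊢
  have hadd : ∀ i ∈ I, ∀ j ∈ I, f (i * j) = f i + f j := fun i hi j hj => by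
    have := hI i hi j hj
    linear_combination -this
  have hc := h.conj (fun b => by rw [nsmul_eq_mul, ZMod.natCast_self, zero_mul]) hf hadd g hi
  rw [inv_mul_cancel_right, hc]; ring

end TameD

section PC

variable {A : Type*} [AddCommGroup A] {ρ : D →* AddMonoid.End A}

theorem ur_eq_zero (h : ProCyc 𝓛 I φ) {c : D → A} (hc : c ∈ Z1 𝓛 ρ) (hI : ∀ i ∈ I, c i = 0)
    (hφ : c φ = 0) : c = 0 := by
  obtain ⟨⟨U, hU, hUc⟩, hcoc⟩ := hc
  have hopen : 𝓛.IsOpen (ProCyc.rightStab c) := ⟨U, hU, fun u hu g => hUc g u hu⟩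
  have hIle : I ≤ ProCyc.rightStab c := fun i hi g => by rw [hcoc, hI i hi, map_zero, zero_add]
  have h1 : c 1 = 0 := hI 1 I.one_mem
  have hpow : ∀ k : ℕ, c (φ ^ k) = 0 := by
    intro k
    induction k with
    | zero => rw [pow_zero, h1]
    | succ k ih => rw [pow_succ, hcoc, hφ, map_zero, ih, add_zero]
  funext g
  obtain ⟨k, hk⟩ := h.gen _ hopen hIle g
  have := hk (φ ^ k)
  rw [mul_inv_cancel_left] at this
  rw [this, hpow]; rfl

theorem mem_H0_of_phi (h : ProCyc 𝓛 I φ) (hsm : Smooth 𝓛 ρ) (hI : ∀ i ∈ I, ∀ a, ρ i a = a) {m : A}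
    (hm : ρ φ m = m) : m ∈ H0 ρ := by
  obtain ⟨U, hU, hUm⟩ := hsm m
  have hopen : 𝓛.IsOpen (ProCyc.stabOf ρ m) := ⟨U, hU, fun u hu => hUm u hu⟩
  intro g
  obtain ⟨k, hk⟩ := h.gen _ hopen (fun i hi => hI i hi m) g
  have hφk : φ ^ k ∈ ProCyc.stabOf ρ m := pow_mem (show φ ∈ ProCyc.stabOf ρ m from hm) k
  have := mul_mem hφk hk
  rwa [mul_inv_cancel_left] at this

theorem rho_inv_apply (g : D) (a : A) : ρ g⁻¹ (ρ g a) = a := by
  rw [← ProCyc.rho_mul, inv_mul_cancel, ProCyc.rho_one]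

theorem rho_apply_inv (g : D) (a : A) : ρ g (ρ g⁻¹ a) = a := by
  rw [← ProCyc.rho_mul, mul_inv_cancel, ProCyc.rho_one]

theorem d0_mem_Z1 (hsm : Smooth 𝓛 ρ) (a : A) : d0 ρ a ∈ B1 𝓛 ρ := by
  obtain ⟨U, hU, hUa⟩ := hsm a
  exact ⟨⟨U, hU, fun g u hu => by simp only [d0_apply, ProCyc.rho_mul, hUa u hu]⟩, a, rfl⟩

theorem B1_le_Z1 : B1 𝓛 ρ ≤ Z1 𝓛 ρ := by
  rintro _ ⟨h, a, rfl⟩
  refine ⟨h, fun g k => ?_⟩
  simp only [d0_apply, ProCyc.rho_mul, map_sub]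
  abel

end PC

section Main

variable {A : Type} [AddCommGroup A] {ρ : D →* AddMonoid.End A}

/-- values on `I` of a cocycle are invariants -/
theorem coc_mem_H0 (h : TameD 𝓛 I φ p κ τ) (hA : ∀ a : A, p • a = 0) (hI : ∀ i ∈ I, ∀ a, ρ i a = a)
    {c : D → A} (hc : c ∈ Z1 𝓛 ρ) {i : D} (hi : i ∈ I) : c i ∈ H0 ρ := by
  intro g
  have hadd : ∀ i ∈ I, ∀ j ∈ I, c (i * j) = c i + c j := fun i hi j _ => by
    rw [hc.2, hI i hi, add_comm]
  have h1 := h.conj hA hc.1 hadd g hi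
  have h2 : c (g * g⁻¹) = ρ g (c g⁻¹) + c g := hc.2 g g⁻¹
  have h3 : c 1 = 0 := by
    have := hc.2 1 1
    rw [mul_one, ProCyc.rho_one] at this
    exact (add_eq_left.1 this.symm)
  rw [mul_inv_cancel, h3] at h2
  rw [hc.2, hc.2, ProCyc.rho_mul, hI i hi] at h1
  have : ρ g (c g⁻¹) = - c g := (neg_eq_of_add_eq_zero_left h2.symm).symm
  rw [this] at h1
  calc ρ g (c i) = -c g + (ρ g (c i) + c g) := by abel
    _ = c i := h1

theorem card_H1_le (h : TameD 𝓛 I φ p κ τ) (hM : FinMod p 𝓛 ρ) (hI : ∀ i ∈ I, ∀ a, ρ i a = a) :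
    Finite (H1 𝓛 ρ) ∧ Nat.card (H1 𝓛 ρ) ≤ Nat.card ↥(H0 ρ) * Nat.card ↥(H0 ρ) := by
  have := hM.fin
  let Θ : ↥(Z1 𝓛 ρ) → ↥(H0 ρ) × A := fun c =>
    (⟨c.1 τ, coc_mem_H0 h hM.tors hI c.2 h.tau_mem⟩, c.1 φ)
  have hΘ : Function.Injective Θ := by
    intro c c' hcc
    have h1 : c.1 τ = c'.1 τ := congrArg (fun x => (x.1 : A)) hcc
    have h2 : c.1 φ = c'.1 φ := congrArg Prod.snd hcc
    have hd : (c - c' : ↥(Z1 𝓛 ρ)).1 ∈ Z1 𝓛 ρ := (c - c').2
    have hadd : ∀ i ∈ I, ∀ j ∈ I, (c - c' : ↥(Z1 𝓛 ρ)).1 (i * j) =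
        (c - c' : ↥(Z1 𝓛 ρ)).1 i + (c - c' : ↥(Z1 𝓛 ρ)).1 j := fun i hi j _ => by
      rw [hd.2, hI i hi, add_comm]
    have h3 : (c - c' : ↥(Z1 𝓛 ρ)).1 = 0 := by
      refine ur_eq_zero h.pc hd (fun i hi => h.of_tau hM.tors hd.1 hadd ?_ hi) ?_
      · change c.1 τ - c'.1 τ = 0
        rw [h1, sub_self]
      · change c.1 φ - c'.1 φ = 0
        rw [h2, sub_self]
    exact sub_eq_zero.1 (Subtype.ext h3)
  have hZ : Finite ↥(Z1 𝓛 ρ) := Finite.of_injective Θ hΘ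
  have hZc : Nat.card ↥(Z1 𝓛 ρ) ≤ Nat.card ↥(H0 ρ) * Nat.card A := by
    rw [← Nat.card_prod]
    exact Nat.card_le_card_of_injective Θ hΘ
  let δ : A →+ ↥(Z1 𝓛 ρ) := (d0 ρ).codRestrict (Z1 𝓛 ρ) (fun a => B1_le_Z1 (d0_mem_Z1 hM.smooth a))
  have hker : δ.ker = H0 ρ := by
    ext a
    rw [AddMonoidHom.mem_ker, mem_H0]
    constructor
    · intro h0 g
      have := congrFun (congrArg Subtype.val h0) g
      exact sub_eq_zero.1 this
    · intro h0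
      apply Subtype.ext
      funext g
      exact sub_eq_zero.2 (h0 g)
  have hran : δ.range = (B1 𝓛 ρ).addSubgroupOf (Z1 𝓛 ρ) := by
    ext c
    rw [AddMonoidHom.mem_range, AddSubgroup.mem_addSubgroupOf]
    constructor
    · rintro ⟨a, rfl⟩
      exact d0_mem_Z1 hM.smooth a
    · rintro ⟨-, a, ha⟩
      exact ⟨a, Subtype.ext ha.symm⟩
  have e1 : Nat.card A = Nat.card ↥((B1 𝓛 ρ).addSubgroupOf (Z1 𝓛 ρ)) * Nat.card ↥(H0 ρ) := by
    rw [AddSubgroup.card_eq_card_quotient_mul_card_addSubgroup δ.ker,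
      Nat.card_congr (QuotientAddGroup.quotientKerEquivRange δ).toEquiv, hker, hran]
  have e2 : Nat.card ↥(Z1 𝓛 ρ) =
      Nat.card (H1 𝓛 ρ) * Nat.card ↥((B1 𝓛 ρ).addSubgroupOf (Z1 𝓛 ρ)) :=
    AddSubgroup.card_eq_card_quotient_mul_card_addSubgroup _
  refine ⟨inferInstance, ?_⟩
  have hpos : 0 < Nat.card ↥((B1 𝓛 ρ).addSubgroupOf (Z1 𝓛 ρ)) := Nat.card_pos
  rw [e2, e1] at hZc
  refine Nat.le_of_mul_le_mul_right ?_ hpos
  calc _ ≤ _ := hZc
    _ = _ := by ring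

variable {ρ' : D →* AddMonoid.End (A →+ ZMod p)} {ρC : D →* AddMonoid.End (ZMod p)}

theorem perp_abs (h : TameD 𝓛 I φ p κ τ) (hM : FinMod p 𝓛 ρ) (hI : ∀ i ∈ I, ∀ a, ρ i a = a)
    (hρ' : ∀ g ψ a, ρ' g ψ a = ψ (ρ g⁻¹ a)) (hρC : ∀ g x, ρC g x = x)
    {b : D → A →+ ZMod p} (hb : b ∈ Z1 𝓛 ρ')
    (hperp : ∀ a ∈ Z1 𝓛 ρ, (fun g k => ρ' g (b k) (a g)) ∈ B2 𝓛 ρC) : b ∈ B1 𝓛 ρ' := by
  have hp : 0 < p := (Fact.out : p.Prime).pos
  have hI' : ∀ i ∈ I, ∀ ψ, ρ' i ψ = ψ := fun i hi ψ => by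
    ext a
    rw [hρ', hI _ (inv_mem hi)]
  have hadd : ∀ i ∈ I, ∀ j ∈ I, b (i * j) = b i + b j := fun i hi j _ => by
    rw [hb.2, hI' i hi, add_comm]
  -- Step 1 : `b` vanishes on `I`
  obtain ⟨U0, hU0, hU0n, hU0t⟩ := hM.exists_trivial
  have hbτ : b τ = 0 := by
    ext y
    obtain ⟨x, rfl⟩ : ∃ x, ρ φ⁻¹ x = y := ⟨ρ φ y, rho_inv_apply φ y⟩
    have hn := h.pc.normal
    obtain ⟨U1, hU1, hIU1, -, -, c, hc1, hc2, hc3⟩ := h.pc.exists_cocycle (ρ := ρ) hp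
      (U0 := U0 ⊔ I) ⟨U0, hU0, le_sup_left⟩ le_sup_right inferInstance (x := x) (by
        intro u hu
        have : U0 ⊔ I ≤ ProCyc.stabOf ρ x :=
          sup_le (fun u hu => hU0t u hu x) (fun i hi => hI i hi x)
        exact this hu) (hM.tors x)
    have hcZ : c ∈ Z1 𝓛 ρ := ⟨ProCyc.lc1_of_isOpen hU1 hc2, hc1⟩
    have hc0 : c 1 = 0 := by
      have := hc3 0
      rwa [pow_zero, ProCyc.nrm_zero] at this
    have hcI : ∀ i ∈ I, c i = 0 := fun i hi => by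
      have := hc2 1 i (hIU1 hi)
      rwa [one_mul, hc0] at this
    have hcφ : c φ = x := by
      have := hc3 1
      rw [pow_one] at this
      rw [this, ProCyc.nrm, Finset.sum_range_one, pow_zero, ProCyc.rho_one]
    have h1 := h.swap hρC (hperp c hcZ) (fun i hi j _ => by
      simp only [hcI i hi, map_zero]) φ h.tau_mem
    simp only [hcI _ (hn.conj_mem τ h.tau_mem φ), map_zero, hcφ, hρ'] at h1
    exact h1
  have hbI : ∀ i ∈ I, b i = 0 := fun i hi => h.of_tau LA.nsmul_dual hb.1 hadd hbτ hi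
  -- Step 2 : `b φ` kills the invariants
  have hbφ : ∀ m, ρ φ⁻¹ m - m = 0 → b φ m = 0 := by
    intro m hm
    have hm1 : ρ φ m = m := by
      have := congrArg (ρ φ) (sub_eq_zero.1 hm)
      rw [rho_apply_inv] at this
      exact this.symm
    have hm0 : m ∈ H0 ρ := mem_H0_of_phi h.pc hM.smooth hI hm1
    have haZ : (fun g => (κ g).val • m) ∈ Z1 𝓛 ρ := by
      refine ⟨h.lc.comp (fun t => t.val • m), fun g k => ?_⟩
      simp only []
      rw [map_nsmul, hm0 g, h.add, ← add_smul, add_comm (κ k).val, ZMod.val_add]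
      conv_rhs => rw [← Nat.mod_add_div ((κ g).val + (κ k).val) p]
      rw [add_smul, mul_smul, hM.tors, add_zero]
    have h1 := h.swap hρC (hperp _ haZ) (fun i _ j hj => by
      simp only [hbI j hj, map_zero, AddMonoidHom.zero_apply]) φ h.tau_mem
    have : Fact (1 < p) := ⟨(Fact.out : p.Prime).one_lt⟩
    simp only [hbI τ h.tau_mem, map_zero, AddMonoidHom.zero_apply, hρ', h.k_conj, h.tau,
      ZMod.val_one, one_smul] at h1
    rw [hm0 _] at h1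
    exact h1.symm
  let R : A →+ A :=
    { toFun := fun a => ρ φ⁻¹ a - a
      map_zero' := by simp
      map_add' := fun a a' => by rw [map_add]; abel }
  obtain ⟨ψ, hψ⟩ := LA.exists_factor_through hM.tors R (b φ) hbφ
  have hsm' : ∀ ψ : A →+ ZMod p, ∃ U ∈ 𝓛.sets, ∀ u ∈ U, ρ' u ψ = ψ := fun ψ =>
    ⟨U0, hU0, fun u hu => by
      ext a
      rw [hρ', hU0t _ (inv_mem hu)]⟩
  have hd : d0 ρ' ψ ∈ B1 𝓛 ρ' := d0_mem_Z1 hsm' ψ
  have hz : b - d0 ρ' ψ = 0 := by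
    refine ur_eq_zero h.pc ((Z1 𝓛 ρ').sub_mem hb (B1_le_Z1 hd)) (fun i hi => ?_) ?_
    · simp only [Pi.sub_apply, d0_apply, hbI i hi, hI' i hi, sub_self]
    · ext a
      simp only [Pi.sub_apply, d0_apply, AddMonoidHom.sub_apply, hρ', AddMonoidHom.zero_apply]
      have : ψ (ρ φ⁻¹ a - a) = b φ a := hψ a
      rw [map_sub] at this
      rw [← this]
      abel
  rw [sub_eq_zero.1 hz]
  exact hd

end Main

end Fermat.Agent.S56.TW
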