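import Fermat.Agent.S56.TW.Tame
import Fermat.Agent.S56.TW.Abs
import Fermat.Agent.S55.D.ProCycInst
import Fermat.Agent.S55.D.Defs

/-!
# S56 / TW / Kum : the Kummer character of `q ^ (1/p)` on `D_q`, `q ≡ 1 mod p`; the instance of `TameD`      (helper6)
-/

set_option autoImplicit false

open Fermat.Agent.S05 Fermat.Agent.S55 Fermat.Agent.S55.B Fermat.Agent.S33 ExtCitation

noncomputable section

namespace Fermat.Agent.S56.TW

variable (p : ℕ) [Fact p.Prime] (q : Nat.Primes)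

/-- `μ_p ⊆ ℚ_q` if `q ≡ 1 mod p` -/
theorem root_fixed_Dq (hqp : (q : ℕ) ≠ p) (hq1 : p ∣ (q : ℕ) - 1) {g : GQ} (hg : g ∈ Dq q) {t : Qb}
    (ht : t ^ p = 1) : g t = t := by
  have hp : 0 < p := (Fact.out : p.Prime).pos
  have hl := q.2
  have hA := S55.D.liesOverPrime_primeLocalPlace q
  have : Fact (q : ℕ).Prime := ⟨q.2⟩
  have := S55.D.charP_residue hl hA
  let G : (primeLocalPlace q).decompositionSubgroup ℚ := ⟨g, hg⟩
  obtain ⟨n, hn⟩ := S55.D.exists_pow_of_ringHom (q : ℕ)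
    (MulSemiringAction.toRingHom ((primeLocalPlace q).decompositionSubgroup ℚ)
      (IsLocalRing.ResidueField (primeLocalPlace q)) G) 1 one_ne_zero
  have htA : t ∈ primeLocalPlace q := S55.D.mem_of_pow_eq_one _ hp ht
  have htq : t ^ (q : ℕ) = t := by
    obtain ⟨c, hc⟩ := hq1
    have h1 : (q : ℕ) = p * c + 1 := by have := q.2.one_lt; omega
    rw [h1, pow_succ, pow_mul, ht, one_pow, one_mul]
  have h1 : (IsLocalRing.residue (primeLocalPlace q) ⟨t, htA⟩) ^ ((q : ℕ) ^ 1) =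
      IsLocalRing.residue (primeLocalPlace q) ⟨t, htA⟩ := by
    rw [← map_pow, pow_one]
    congr 1
    exact Subtype.ext htq
  have h3 : ∀ n : ℕ, (IsLocalRing.residue (primeLocalPlace q) ⟨t, htA⟩) ^ ((q : ℕ) ^ n) =
      IsLocalRing.residue (primeLocalPlace q) ⟨t, htA⟩ := by
    intro n
    induction n with
    | zero => simp
    | succ n ih =>
      rw [pow_succ, pow_mul, ih]
      rwa [pow_one] at h1
  have h2 : G • IsLocalRing.residue (primeLocalPlace q) ⟨t, htA⟩ =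
      (IsLocalRing.residue (primeLocalPlace q) ⟨t, htA⟩) ^ ((q : ℕ) ^ n) := hn _ h1
  rw [h3, ← IsLocalRing.ResidueField.residue_smul, S55.D.residue_eq_iff] at h2
  refine S55.D.root_eq_of_sub_mem hl hA (N := p) ?_ (by rw [← map_pow, ht, map_one]) ht h2
  intro h
  exact hqp ((Nat.prime_dvd_prime_iff_eq q.2 Fact.out).1 h)

theorem root_ne_zero {w : Qb} (hw : w ^ p = ((q : ℕ) : Qb)) : w ≠ 0 := by
  rintro rfl
  rw [zero_pow (Fact.out : p.Prime).pos.ne'] at hw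
  exact q_ne_zero q hw.symm

/-- `w(q ^ (1/p)) = 1/p ∉ ℤ` -/
theorem exists_moves_root {w : Qb} (hw : w ^ p = ((q : ℕ) : Qb)) : ∃ τ ∈ Iq q, τ w ≠ w := by
  by_contra hcon
  push Not at hcon
  have hw0 := root_ne_zero p q hw
  obtain ⟨k, hk⟩ := w_int_of_fixed q hcon hw0
  have h1 : (wq q).w (w ^ p) = p * (wq q).w w := RVal.w_pow hw0 p
  rw [hw, wq_q, hk] at h1
  have h2 : (1 : ℤ) = p * k := by exact_mod_cast h1
  have h3 : (p : ℤ) ∣ 1 := ⟨k, h2⟩
  have h4 : p ∣ 1 := by exact_mod_cast h3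
  exact (Fact.out : p.Prime).one_lt.ne' (Nat.dvd_one.1 h4)

theorem natCast_eq_of_pow_eq {ζ : Qb} (hζ : IsPrimitiveRoot ζ p) {a b : ℕ} (h : ζ ^ a = ζ ^ b) :
    (a : ZMod p) = b := by
  have h0 : ζ ≠ 0 := hζ.ne_zero (Fact.out : p.Prime).pos.ne'
  have h1 : ζ ^ ((a : ℤ) - b) = 1 := by
    rw [zpow_sub₀ h0, zpow_natCast, zpow_natCast, h, div_self (pow_ne_zero _ h0)]
  have h2 := (hζ.zpow_eq_one_iff_dvd _).1 h1
  have h3 := (ZMod.intCast_zmod_eq_zero_iff_dvd _ p).2 h2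
  push_cast at h3
  exact sub_eq_zero.1 h3

theorem exists_kummer (hqp : (q : ℕ) ≠ p) (hq1 : p ∣ (q : ℕ) - 1) :
    ∃ (κ : ↥(Dq q) → ZMod p) (τ : ↥(Dq q)) (w : Qb), w ^ p = ((q : ℕ) : Qb) ∧
      (∀ g h, κ (g * h) = κ g + κ h) ∧ LC1 (lvlD q) κ ∧ τ ∈ S55.D.IqD q ∧ κ τ = 1 ∧
      ∀ g, κ g = 0 → (g : GQ) w = w := by
  have hp : 0 < p := (Fact.out : p.Prime).pos
  obtain ⟨w, hw⟩ := IsAlgClosed.exists_pow_nat_eq ((q : ℕ) : Qb) hp
  have hw0 := root_ne_zero p q hw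
  obtain ⟨τ0, hτ0, hτw⟩ := exists_moves_root p q hw
  have hroot : ∀ g : GQ, (g w / w) ^ p = 1 := fun g => by
    rw [div_pow, ← map_pow, hw, map_natCast, div_self (q_ne_zero q)]
  obtain ⟨ζ, hζdef⟩ : ∃ ζ : Qb, ζ = τ0 w / w := ⟨_, rfl⟩
  have hζ1 : ζ ≠ 1 := by
    rw [hζdef]
    intro h
    rw [div_eq_one_iff_eq hw0] at h
    exact hτw h
  have hζ : IsPrimitiveRoot ζ p := by
    have h1 : orderOf ζ = p := orderOf_eq_prime (by rw [hζdef]; exact hroot τ0) hζ1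
    rw [← h1]
    exact IsPrimitiveRoot.orderOf ζ
  have hex : ∀ g : ↥(Dq q), ∃ n : ZMod p, (g : GQ) w = ζ ^ n.val * w := by
    intro g
    obtain ⟨i, hi, h⟩ := hζ.eq_pow_of_pow_eq_one (hroot (g : GQ))
    refine ⟨(i : ZMod p), ?_⟩
    rw [ZMod.val_natCast, Nat.mod_eq_of_lt hi, h, div_mul_cancel₀ _ hw0]
  choose κ hκ using hex
  have huniq : ∀ (g : ↥(Dq q)) (n : ℕ), (g : GQ) w = ζ ^ n * w → κ g = n := by
    intro g n h
    rw [hκ g] at h
    have := natCast_eq_of_pow_eq p hζ (mul_right_cancel₀ hw0 h)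
    rwa [ZMod.natCast_zmod_val] at this
  have hadd : ∀ g h, κ (g * h) = κ g + κ h := by
    intro g h
    have h1 : ((g * h : ↥(Dq q)) : GQ) w = ζ ^ ((κ g).val + (κ h).val) * w := by
      change (g : GQ) ((h : GQ) w) = _
      rw [hκ h, map_mul, map_pow, root_fixed_Dq p q hqp hq1 g.2 hζ.pow_eq_one, hκ g, pow_add]
      ring
    rw [huniq _ _ h1]
    push_cast
    rw [ZMod.natCast_zmod_val, ZMod.natCast_zmod_val]
  have hzero : ∀ g : ↥(Dq q), (g : GQ) w = w → κ g = 0 := by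
    intro g h
    have := huniq g 0 (by rw [pow_zero, one_mul, h])
    simpa using this
  refine ⟨κ, ⟨τ0, Iq_le_Dq q hτ0⟩, w, hw, hadd, ?_, hτ0, ?_, ?_⟩
  · have hfd : FiniteDimensional ℚ (IntermediateField.adjoin ℚ {w}) :=
      IntermediateField.adjoin.finiteDimensional (Algebra.IsIntegral.isIntegral w)
    refine ⟨_, ⟨_, ⟨IntermediateField.adjoin ℚ {w}, hfd, rfl⟩, rfl⟩, fun g u hu => ?_⟩
    rw [hadd, hzero u, add_zero]
    exact (IntermediateField.mem_fixingSubgroup_iff _ _).1 hu w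
      (IntermediateField.mem_adjoin_simple_self ℚ w)
  · have := huniq ⟨τ0, Iq_le_Dq q hτ0⟩ 1 (by
      rw [pow_one, hζdef, div_mul_cancel₀ _ hw0])
    simpa using this
  · intro g hg
    rw [hκ g, hg, ZMod.val_zero, pow_zero, one_mul]

/-- **the instance** -/
theorem exists_tameD (hqp : (q : ℕ) ≠ p) (hq1 : p ∣ (q : ℕ) - 1) :
    ∃ (φ : ↥(Dq q)) (κ : ↥(Dq q) → ZMod p) (τ : ↥(Dq q)),
      (primeLocalPlace q).IsFrobeniusAt (φ : GQ) (q : ℕ) ∧
      TameD (lvlD q) (S55.D.IqD q) φ p κ τ := by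
  classical
  obtain ⟨φ, hφ, hpc⟩ := S55.D.exists_proCyc q
  obtain ⟨κ, τ, w, hw, hadd, hlc, hτ, hκτ, hκ0⟩ := exists_kummer p q hqp hq1
  refine ⟨φ, κ, τ, hφ, hpc, hadd, hlc, hτ, hκτ, ?_⟩
  intro B _ hB e he headd i hi hκi
  obtain ⟨_, ⟨_, ⟨F, hF, rfl⟩, rfl⟩, hU⟩ := he
  have he1 : e 1 = 0 := by
    have := headd 1 (Subgroup.one_mem _) 1 (Subgroup.one_mem _)
    rw [mul_one] at this
    exact (add_eq_left.1 this.symm)
  have key := tame p q hqp hB (fun σ => if h : σ ∈ Dq q then e ⟨σ, h⟩ else 0)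
    (fun i hi j hj => by
      have hiD := Iq_le_Dq q hi
      have hjD := Iq_le_Dq q hj
      simp only [dif_pos hiD, dif_pos hjD, dif_pos ((Dq q).mul_mem hiD hjD)]
      exact headd ⟨i, hiD⟩ hi ⟨j, hjD⟩ hj) F
    (fun u hu huF => by
      have huD := Iq_le_Dq q hu
      simp only [dif_pos huD]
      have := hU 1 ⟨u, huD⟩ huF
      rwa [one_mul, he1] at this) hw (σ := (i : GQ)) hi (hκ0 i hκi)
  simpa only [dif_pos i.2] using key

end Fermat.Agent.S56.TW
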