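import Fermat.Agent.S56.GW.LocPair
import Fermat.Agent.S56.TW.Kum
import Fermat.Agent.S56.Tan.Res

/-!
# S56 / TW / Inst : local cohomology of `ad⁰ ρbar` at a Taylor-Wiles prime      (helper6)

`tw_card`, `tw_perp` (the statements of `S56/IfTW.lean`) from `TW/Abs.lean` (abstract) + `TW/Kum.lean` (the instance `TameD` for `D_q`).
-/

set_option autoImplicit false

open IsLocalRing Polynomial Fermat.Agent.S53 Fermat.Agent.S55 Fermat.Agent.S55.D ExtCitation

noncomputable section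

namespace Fermat.Agent.S56.TW

/-! ### the invariant map is injective -/

theorem t_injective {p : ℕ} [Fact p.Prime] (dat : Datum p lvlQ (cycloChar p) Dq) (v : Nat.Primes) :
    Function.Injective (dat.t v) := by
  rw [injective_iff_map_eq_zero]
  intro x hx
  have hT : FinMod p (lvlD v) (Tv p v) :=
    ⟨inferInstance, fun a => by rw [nsmul_eq_mul, ZMod.natCast_self, zero_mul],
      (smooth_rhoT_lvlQ_aux p).res lvlQ (Dq v).subtype⟩
  refine loc2_inj dat v (Tv p v) hT x fun φ hφ => ?_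
  have hφ1 : ∀ a : ZMod p, φ a = (φ 1).val • a := by
    intro a
    have h1 : a = a.val • (1 : ZMod p) := by
      rw [nsmul_eq_mul, mul_one, ZMod.natCast_zmod_val]
    conv_lhs => rw [h1]
    rw [map_nsmul, nsmul_eq_mul, nsmul_eq_mul, ZMod.natCast_zmod_val, ZMod.natCast_zmod_val,
      mul_comm]
  have h1 : H2c (lvlD v) hφ x = (φ 1).val • x := by
    obtain ⟨z, rfl⟩ := H2.mk_surjective _ _ x
    rw [← map_nsmul]
    change H2.mk _ _ _ = _
    congr 1
    apply Subtype.ext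
    funext g h
    exact hφ1 _
  change dat.t v (H2c (lvlD v) hφ x) = 0
  rw [h1, map_nsmul, hx, smul_zero]

/-! ### the centraliser of a regular semisimple matrix -/

theorem comm_inj {k : Type} [Field k] (h2 : (2 : k) ≠ 0) (g : M2 k) {α β : k} (hαβ : α ≠ β)
    (hg : g.charpoly = (X - C α) * (X - C β)) (Y : M2 k) (htr : Y.trace = 0)
    (hc : g * Y = Y * g)
    (hL : (g 0 0 - g 1 1) * Y 0 0 + g 1 0 * Y 0 1 + g 0 1 * Y 1 0 = 0) : Y = 0 := by
  rw [Matrix.charpoly_fin_two, Matrix.trace_fin_two, Matrix.det_fin_two] at hg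
  have ea := congrArg (Polynomial.eval α) hg
  have eb := congrArg (Polynomial.eval β) hg
  simp only [eval_add, eval_sub, eval_mul, eval_pow, eval_X, eval_C, sub_self, zero_mul,
    mul_zero] at ea eb
  have hne : α - β ≠ 0 := sub_ne_zero.2 hαβ
  have htrg : g 0 0 + g 1 1 = α + β := by
    have : (α - β) * (α + β - (g 0 0 + g 1 1)) = 0 := by linear_combination ea - eb
    have := (mul_eq_zero.1 this).resolve_left hne
    linear_combination -this
  have hD : (g 0 0 - g 1 1) ^ 2 + 4 * (g 0 1 * g 1 0) ≠ 0 := by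
    have : (g 0 0 - g 1 1) ^ 2 + 4 * (g 0 1 * g 1 0) = (α - β) ^ 2 := by
      linear_combination (g 0 0 + g 1 1 + α + β - 4 * α) * htrg - 4 * ea
    rw [this]
    exact pow_ne_zero 2 hne
  rw [Matrix.trace_fin_two] at htr
  have e11 := congrFun (congrFun hc 0) 0
  have e12 := congrFun (congrFun hc 0) 1
  have e21 := congrFun (congrFun hc 1) 0
  simp only [Matrix.mul_apply, Fin.sum_univ_two] at e11 e12 e21
  have hw : Y 1 1 = - Y 0 0 := by linear_combination htr
  rw [hw] at e12 e21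
  have hx : Y 0 0 = 0 := by
    have : ((g 0 0 - g 1 1) ^ 2 + 4 * (g 0 1 * g 1 0)) * Y 0 0 = 0 := by
      linear_combination (g 0 0 - g 1 1) * hL - g 1 0 * e12 + g 0 1 * e21
    exact (mul_eq_zero.1 this).resolve_left hD
  rw [hx] at e11 e12 e21 hL hw
  have h4 : (4 : k) ≠ 0 := by
    have : (4 : k) = 2 * 2 := by norm_num
    rw [this]
    exact mul_ne_zero h2 h2
  have hyz : Y 0 1 = 0 ∧ Y 1 0 = 0 := by
    by_cases hδ : g 0 0 - g 1 1 = 0
    · rw [hδ] at hD
      have hbc : g 0 1 * g 1 0 ≠ 0 := by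
        intro h
        apply hD
        rw [h]; ring
      have hb : g 0 1 ≠ 0 := left_ne_zero_of_mul hbc
      have hc' : g 1 0 ≠ 0 := right_ne_zero_of_mul hbc
      constructor
      · have : 2 * g 1 0 * Y 0 1 = 0 := by linear_combination hL - e11
        exact (mul_eq_zero.1 this).resolve_left (mul_ne_zero h2 hc')
      · have : 2 * g 0 1 * Y 1 0 = 0 := by linear_combination hL + e11
        exact (mul_eq_zero.1 this).resolve_left (mul_ne_zero h2 hb)
    · constructor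
      · have : (g 0 0 - g 1 1) * Y 0 1 = 0 := by linear_combination e12
        exact (mul_eq_zero.1 this).resolve_left hδ
      · have : (g 0 0 - g 1 1) * Y 1 0 = 0 := by linear_combination -e21
        exact (mul_eq_zero.1 this).resolve_left hδ
  ext i j
  fin_cases i <;> fin_cases j
  · exact hx
  · exact hyz.1
  · exact hyz.2
  · simpa using hw

variable {𝒪 : Type} [CommRing 𝒪] [IsLocalRing 𝒪]

theorem p_eq_zero (p : ℕ) (hp𝒪 : (p : 𝒪) ∈ maximalIdeal 𝒪) : (p : ResidueField 𝒪) = 0 := by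
  rw [← map_natCast (residue 𝒪), residue_eq_zero_iff]
  exact hp𝒪

theorem two_ne_zero' (p : ℕ) [Fact p.Prime] (hp2 : p ≠ 2) (hp𝒪 : (p : 𝒪) ∈ maximalIdeal 𝒪) :
    (2 : ResidueField 𝒪) ≠ 0 := by
  have : CharP (ResidueField 𝒪) p :=
    (CharP.charP_iff_prime_eq_zero (Fact.out : p.Prime)).2 (p_eq_zero p hp𝒪)
  intro h
  have h1 : ((2 : ℕ) : ResidueField 𝒪) = 0 := by exact_mod_cast h
  rw [CharP.cast_eq_zero_iff (ResidueField 𝒪) p] at h1
  exact hp2 ((Nat.prime_dvd_prime_iff_eq Fact.out Nat.prime_two).1 h1)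

section

variable {k : Type} [Field k] {ρbar : ResidualGaloisRep k} {r0 : Gal →* GL (Fin 2) k}

theorem r0_eq_one (h0 : HasMatrixRes ρbar (fun σ => (r0 σ : M2 k))) {q : Nat.Primes}
    (hur : ρbar.IsUnramifiedAt q) {σ : Gal} (hσ : σ ∈ Iq q) : r0 σ = 1 := by
  obtain ⟨b, hb⟩ := h0
  have h1 : ρbar.ρ σ = 1 := hur _ (liesOverPrime_primeLocalPlace q) σ hσ
  have h2 := hb σ
  rw [h1, LinearMap.toMatrix_one] at h2
  exact Units.ext h2.symm

theorem ad_trivial (h0 : HasMatrixRes ρbar (fun σ => (r0 σ : M2 k))) {q : Nat.Primes}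
    (hur : ρbar.IsUnramifiedAt q) : ∀ i ∈ IqD q, ∀ a, rv Dq (adRho r0) q i a = a := by
  intro i hi a
  apply Subtype.ext
  change ((adRho r0 (i : Gal) a : Ad0 k) : M2 k) = a
  have h := r0_eq_one h0 hur (σ := (i : Gal)) hi
  rw [coe_adRho, h]
  simp

theorem card_H0_le [Finite k] (h2 : (2 : k) ≠ 0)
    (h0 : HasMatrixRes ρbar (fun σ => (r0 σ : M2 k))) (q : Nat.Primes)
    (hfrob : ∀ P : ValuationSubring (AlgebraicClosure ℚ), P.LiesOverPrime q →
      ∀ φ : Gal, P.IsFrobeniusAt φ q →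
        ∃ α β : k, α ≠ β ∧ LinearMap.charpoly (ρbar.ρ φ) = (X - C α) * (X - C β)) :
    Nat.card ↥(H0 (rv Dq (adRho r0) q)) ≤ Nat.card k := by
  obtain ⟨φ, hφ, -⟩ := exists_proCyc q
  obtain ⟨α, β, hαβ, hch⟩ := hfrob _ (liesOverPrime_primeLocalPlace q) _ hφ
  obtain ⟨b, hb⟩ := h0
  have hch' : ((r0 (φ : Gal) : GL (Fin 2) k) : M2 k).charpoly = (X - C α) * (X - C β) := by
    rw [← hch, ← LinearMap.charpoly_toMatrix _ b]
    congr 1
    exact (hb _).symm
  obtain ⟨g, hg⟩ : ∃ g : M2 k, g = ((r0 (φ : Gal) : GL (Fin 2) k) : M2 k) := ⟨_, rfl⟩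
  let L : ↥(H0 (rv Dq (adRho r0) q)) →+ k :=
    { toFun := fun Y => (g 0 0 - g 1 1) * (Y.1.1 : M2 k) 0 0 + g 1 0 * (Y.1.1 : M2 k) 0 1 +
        g 0 1 * (Y.1.1 : M2 k) 1 0
      map_zero' := by simp
      map_add' := fun Y Y' => by
        simp only [AddSubgroup.coe_add, Matrix.add_apply]
        ring }
  have hinj : Function.Injective L := by
    rw [injective_iff_map_eq_zero]
    intro Y hY
    apply Subtype.ext
    apply Subtype.ext
    refine comm_inj h2 g hαβ (hg ▸ hch') _ Y.1.2 ?_ hY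
    have h1 : ((adRho r0 (φ : Gal) Y.1 : Ad0 k) : M2 k) = Y.1.1 := congrArg Subtype.val (Y.2 φ)
    rw [coe_adRho] at h1
    have h3 := congrArg (fun Z => Z * ((r0 (φ : Gal) : GL (Fin 2) k) : M2 k)) h1
    simp only [mul_assoc, ← Units.val_mul, inv_mul_cancel, Units.val_one, mul_one] at h3
    rw [hg]
    exact h3
  exact Nat.card_le_card_of_injective L hinj

end

theorem chi_eq_one (p : ℕ) [Fact p.Prime] (q : Nat.Primes) (hqp : (q : ℕ) ≠ p)
    (hq1 : p ∣ (q : ℕ) - 1) (g : ↥(Dq q)) : cycloChar p (g : GQ) = 1 :=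
  E.cycloChar_eq_one p _ fun _ ht => root_fixed_Dq p q hqp hq1 g.2 ht

section Final

variable {k : Type} [Field k] [Finite k]

set_option maxHeartbeats 4000000 in
theorem tw_card (p : ℕ) [Fact p.Prime] [CharP k p] (h2 : (2 : k) ≠ 0)
    (ρbar : ResidualGaloisRep k) (r0 : Gal →* GL (Fin 2) k)
    (h0 : HasMatrixRes ρbar (fun σ => (r0 σ : M2 k)))
    (q : Nat.Primes) (hqp : (q : ℕ) ≠ p) (hq1 : p ∣ (q : ℕ) - 1) (hur : ρbar.IsUnramifiedAt q)
    (hfrob : ∀ P : ValuationSubring (AlgebraicClosure ℚ), P.LiesOverPrime q →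
      ∀ φ : Gal, P.IsFrobeniusAt φ q →
        ∃ α β : k, α ≠ β ∧ LinearMap.charpoly (ρbar.ρ φ) = (X - C α) * (X - C β)) :
    Finite (H1 (lvlD q) (rv Dq (adRho r0) q)) ∧
      Nat.card (H1 (lvlD q) (rv Dq (adRho r0) q)) ≤
        Nat.card k * Nat.card (H0 (rv Dq (adRho r0) q)) := by
  have hM : FinMod p lvlQ (adRho (k := k) r0) := finMod_adRho p h0
  obtain ⟨φ, κ, τ, -, hT⟩ := exists_tameD p q hqp hq1
  have hMq : FinMod p (lvlD q) (rv Dq (adRho r0) q) := hM.res (Dq q).subtype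
  have hI := ad_trivial h0 hur
  have h00 := card_H0_le h2 h0 q hfrob
  obtain ⟨hfin, hcard⟩ := card_H1_le (ρ := rv Dq (adRho r0) q) hT hMq hI
  exact ⟨hfin, hcard.trans (Nat.mul_le_mul_right _ h00)⟩

set_option maxHeartbeats 4000000 in
theorem tw_perp (p : ℕ) [Fact p.Prime]
    (ρbar : ResidualGaloisRep k) (r0 : Gal →* GL (Fin 2) k)
    (h0 : HasMatrixRes ρbar (fun σ => (r0 σ : M2 k)))
    (dat : Datum p lvlQ (cycloChar p) Dq) (hM : FinMod p lvlQ (adRho (k := k) r0))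
    (q : Nat.Primes) (hqp : (q : ℕ) ≠ p) (hq1 : p ∣ (q : ℕ) - 1) (hur : ρbar.IsUnramifiedAt q)
    (y : H1 (lvlD q) (rv Dq (dualRho (cycloChar p) (adRho r0)) q))
    (hy : ∀ x : H1 (lvlD q) (rv Dq (adRho r0) q), lp dat hM q x y = 0) : y = 0 := by
  obtain ⟨φ, κ, τ, -, hT⟩ := exists_tameD p q hqp hq1
  obtain ⟨b, rfl⟩ := H1.mk_surjective _ _ y
  rw [H1.mk_eq_zero_iff]
  have hMq : FinMod p (lvlD q) (rv Dq (adRho r0) q) := hM.res (Dq q).subtype
  have hI := ad_trivial h0 hur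
  refine perp_abs (ρ := rv Dq (adRho r0) q) (ρ' := rv Dq (dualRho (cycloChar p) (adRho r0)) q)
    (ρC := Tv p q) hT hMq hI ?_ ?_ b.2 (fun a ha => ?_)
  · intro g ψ a
    change dualRho (cycloChar p) (adRho r0) (g : GQ) ψ a = _
    rw [dualRho_apply, chi_eq_one p q hqp hq1 g, Units.val_one, one_mul]
    rfl
  · intro g x
    change rhoChi (cycloChar p) (g : GQ) x = x
    rw [rhoChi_apply, chi_eq_one p q hqp hq1 g, Units.val_one, one_mul]
  · have h1 := hy (H1.mk _ _ ⟨a, ha⟩)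
    rw [lp_mk] at h1
    have h2 := t_injective dat q (h1.trans (map_zero _).symm)
    exact (H2.mk_eq_zero_iff _ _ _).1 h2

end Final

end Fermat.Agent.S56.TW
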