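import Fermat.Agent.S33.Val.Cyc
import Fermat.Agent.S55.B.Prim
import Fermat.Agent.S55.B.Interp
import Fermat.Agent.S55.B.Root
import Fermat.Agent.S55.A.LinAlg
import Fermat.Agent.S55.D.ULevel

/-!
# S56 / TW / Tame : homomorphisms from the inertia group at `q ≠ p` to groups killed by `p`      (helper6)

`tame` : `q ≠ p`, `w ^ p = q`, `f` additive on `Iq q`, trivial on `Iq q ⊓ F.fixingSubgroup` (`F` a number field), with values in a group killed by `p`.
Then `f σ = 0` for every `σ ∈ Iq q` with `σ w = w`.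

Proof.  Compose with a functional: `f : Iq q → ZMod p`, `f σ ≠ 0`.  `H' = ker f` has index `p` in `H = Iq q`, generator `σ`: `Cyc H H' σ p` (`S55.B.cyc_of_open`).
Hilbert 90 (`Cyc.h90`) for `ζ` (fixed by inertia): `σ y = ζ y`, `y ∈ Fx H'`.  `y ^ p ∈ Fx H`, so its valuation is an integer `k` (`S33.w_int_of_fixed`).
`z = y / w ^ k` is a unit with `z ^ p` fixed by `H`; so `i z / z` is a `p`-th root of unity `≡ 1`, hence `= 1`: `z` is fixed by `H`.  So `σ y = y`: contradiction.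
-/

set_option autoImplicit false

open Fermat.Agent.S05 Fermat.Agent.S55 Fermat.Agent.S55.B Fermat.Agent.S33 ExtCitation

noncomputable section

namespace Fermat.Agent.S56.TW

variable (p : ℕ) [Fact p.Prime] (q : Nat.Primes)

/-- roots of unity of order `p ≠ q` are fixed by the inertia group at `q` -/
theorem root_fixed (hqp : (q : ℕ) ≠ p) {i : GQ} (hi : i ∈ Iq q) {t : Qb} (ht : t ^ p = 1) : i t = t := by
  have h1 := S55.D.cycloChar_eq_one_of_inertia p q.2 hqp (S55.D.liesOverPrime_primeLocalPlace q) hi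
  have h2 := S55.E.cycloChar_spec p i ht
  have : Fact (1 < p) := ⟨(Fact.out : p.Prime).one_lt⟩
  rw [h1, Units.val_one, ZMod.val_one, pow_one] at h2
  exact h2

theorem w_p_eq_zero (hqp : (q : ℕ) ≠ p) : (wq q).w ((p : ℕ) : Qb) = 0 := by
  refine w_natCast_eq_zero q.2 (by rw [wq_q]; exact one_pos) ?_
  intro h
  exact hqp ((Nat.prime_dvd_prime_iff_eq q.2 Fact.out).1 h)

/-- a unit whose `p`-th power is fixed by inertia is fixed by inertia -/
theorem unit_fixed (hqp : (q : ℕ) ≠ p) {z : Qb} (hz0 : z ≠ 0) (hz : (wq q).w z = 0)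
    (hfix : ∀ i ∈ Iq q, i (z ^ p) = z ^ p) {i : GQ} (hi : i ∈ Iq q) : i z = z := by
  have hp : 0 < p := (Fact.out : p.Prime).pos
  have h1 : (i z / z) ^ p = 1 := by
    rw [div_pow, ← map_pow, hfix i hi, div_self (pow_ne_zero _ hz0)]
  have h2 : (wq q).GT (i z - z) 0 := GT_of_mem_Iq q hi (Or.inr hz.ge)
  have h3 : (wq q).GT (i z / z - 1) ((wq q).w ((p : ℕ) : Qb)) := by
    rw [w_p_eq_zero p q hqp]
    have e : i z / z - 1 = (i z - z) * z⁻¹ := by field_simp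
    rw [e]
    rcases h2 with h2 | h2
    · left; rw [h2, zero_mul]
    · by_cases h0 : i z - z = 0
      · left; rw [h0, zero_mul]
      · right
        rw [(wq q).map_mul _ _ h0 (inv_ne_zero hz0), RVal.w_inv hz0, hz, neg_zero, add_zero]
        exact h2
  have h4 := eq_one_of_pow_eq_one hp h1 h3
  rwa [div_eq_one_iff_eq hz0] at h4

/-- the `ZMod p`-valued case -/
theorem tame_zmod (hqp : (q : ℕ) ≠ p) (f : GQ → ZMod p)
    (hadd : ∀ i ∈ Iq q, ∀ j ∈ Iq q, f (i * j) = f i + f j)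
    (F : IntermediateField ℚ Qb) [FiniteDimensional ℚ F]
    (hF : ∀ u ∈ Iq q, u ∈ F.fixingSubgroup → f u = 0) {w : Qb} (hw : w ^ p = ((q : ℕ) : Qb))
    {σ : GQ} (hσ : σ ∈ Iq q) (hσw : σ w = w) : f σ = 0 := by
  by_contra hne
  have hp : 0 < p := (Fact.out : p.Prime).pos
  have hf1 : f 1 = 0 := by
    have := hadd 1 (Iq q).one_mem 1 (Iq q).one_mem
    rw [mul_one] at this
    exact left_eq_add.1 this
  have hfinv : ∀ i ∈ Iq q, f i⁻¹ = - f i := by
    intro i hi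
    have := hadd i hi i⁻¹ ((Iq q).inv_mem hi)
    rw [mul_inv_cancel, hf1] at this
    exact (neg_eq_of_add_eq_zero_right this.symm).symm
  have hfpow : ∀ i ∈ Iq q, ∀ n : ℕ, f (i ^ n) = n * f i := by
    intro i hi n
    induction n with
    | zero => simp [hf1]
    | succ n ih =>
      rw [pow_succ, hadd _ ((Iq q).pow_mem hi n) _ hi, ih]
      push_cast
      ring
  let H' : Subgroup GQ :=
    { carrier := {i | i ∈ Iq q ∧ f i = 0}
      mul_mem' := fun {a b} ha hb => ⟨(Iq q).mul_mem ha.1 hb.1, by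
        rw [hadd a ha.1 b hb.1, ha.2, hb.2, add_zero]⟩
      one_mem' := ⟨(Iq q).one_mem, hf1⟩
      inv_mem' := fun {a} ha => ⟨(Iq q).inv_mem ha.1, by rw [hfinv a ha.1, ha.2, neg_zero]⟩ }
  have hc : Cyc (Iq q) H' σ p := by
    refine cyc_of_open F ?_ (fun i hi => hi.1) hσ hp ?_ ?_ ?_ ?_
    · intro u hu
      exact ⟨hu.1, hF u hu.1 hu.2⟩
    · intro h hh
      refine ⟨⟨(Iq q).mul_mem ((Iq q).mul_mem hσ hh.1) ((Iq q).inv_mem hσ), ?_⟩,
        ⟨(Iq q).mul_mem ((Iq q).mul_mem ((Iq q).inv_mem hσ) hh.1) hσ, ?_⟩⟩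
      · rw [hadd _ ((Iq q).mul_mem hσ hh.1) _ ((Iq q).inv_mem hσ), hadd _ hσ _ hh.1, hh.2,
          hfinv σ hσ]
        ring
      · rw [hadd _ ((Iq q).mul_mem ((Iq q).inv_mem hσ) hh.1) _ hσ,
          hadd _ ((Iq q).inv_mem hσ) _ hh.1, hh.2, hfinv σ hσ]
        ring
    · intro τ hτ
      refine ⟨(f τ / f σ).val, ZMod.val_lt _, (Iq q).mul_mem ((Iq q).inv_mem ((Iq q).pow_mem hσ _)) hτ, ?_⟩
      rw [hadd _ ((Iq q).inv_mem ((Iq q).pow_mem hσ _)) _ hτ, hfinv _ ((Iq q).pow_mem hσ _),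
        hfpow σ hσ, ZMod.natCast_val, ZMod.cast_id', id_eq, div_mul_cancel₀ _ hne]
      ring
    · exact ⟨(Iq q).pow_mem hσ _, by rw [hfpow σ hσ, ZMod.natCast_self, zero_mul]⟩
    · intro i hi0 hip hmem
      have h1 := hmem.2
      rw [hfpow σ hσ] at h1
      rcases mul_eq_zero.1 h1 with h1 | h1
      · rw [ZMod.natCast_eq_zero_iff] at h1
        exact absurd (Nat.le_of_dvd hi0 h1) (not_le.2 hip)
      · exact hne h1
  obtain ⟨ζ, hζ⟩ : ∃ ζ : Qb, IsPrimitiveRoot ζ p :=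
    HasEnoughRootsOfUnity.exists_primitiveRoot Qb p
  have hζfix : ∀ i ∈ Iq q, i ζ = ζ := fun i hi => root_fixed p q hqp hi hζ.pow_eq_one
  have hζH' : ζ ∈ Fx H' := mem_Fx.2 fun i hi => hζfix i hi.1
  obtain ⟨y, hyH', hy0, hy⟩ := hc.h90 hζH' (by rw [Nm_of_fixed (hζfix σ hσ), hζ.pow_eq_one])
  have hσy : σ y = ζ * y := by rw [hy]; field_simp
  have hypH : y ^ p ∈ Fx (Iq q) := by
    refine hc.mem_Fx_iff.2 ⟨pow_mem hyH' p, ?_⟩
    rw [map_pow, hσy, mul_pow, hζ.pow_eq_one, one_mul]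
  obtain ⟨k, hk⟩ := w_int_of_fixed q (mem_Fx.1 hypH) (pow_ne_zero _ hy0)
  have hw0 : w ≠ 0 := by
    rintro rfl
    rw [zero_pow hp.ne'] at hw
    exact q_ne_zero q hw.symm
  have hz0 : y / w ^ k ≠ 0 := div_ne_zero hy0 (zpow_ne_zero _ hw0)
  have hzp : (y / w ^ k) ^ p = y ^ p / ((q : ℕ) : Qb) ^ k := by
    rw [div_pow, ← zpow_natCast (w ^ k), ← zpow_mul, mul_comm, zpow_mul, zpow_natCast, hw]
  have hwz : (wq q).w (y / w ^ k) = 0 := by
    have h1 : (wq q).w ((y / w ^ k) ^ p) = p * (wq q).w (y / w ^ k) := RVal.w_pow hz0 p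
    have h2 : (wq q).w ((y / w ^ k) ^ p) = 0 := by
      rw [hzp, div_eq_mul_inv, (wq q).map_mul _ _ (pow_ne_zero _ hy0)
        (inv_ne_zero (zpow_ne_zero _ (q_ne_zero q))), RVal.w_inv (zpow_ne_zero _ (q_ne_zero q)),
        (w_q_zpow q k).2, hk]
      ring
    rw [h2] at h1
    have hp' : (p : ℝ) ≠ 0 := by exact_mod_cast hp.ne'
    exact (mul_eq_zero.1 h1.symm).resolve_left hp'
  have hzfix : ∀ i ∈ Iq q, i ((y / w ^ k) ^ p) = (y / w ^ k) ^ p := by
    intro i hi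
    rw [hzp, map_div₀, mem_Fx.1 hypH i hi, map_zpow₀, map_natCast]
  have h5 := unit_fixed p q hqp hz0 hwz hzfix hσ
  rw [map_div₀, map_zpow₀, hσw, hσy] at h5
  have h6 : ζ * y = y := by
    have := congrArg (fun t => t * w ^ k) h5
    simpa [div_mul_cancel₀ _ (zpow_ne_zero k hw0)] using this
  have h7 : ζ = 1 := by
    have := mul_right_cancel₀ hy0 (h6.trans (one_mul y).symm)
    exact this
  exact hζ.ne_one (Fact.out : p.Prime).one_lt h7

/-- **(TAME)** -/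
theorem tame (hqp : (q : ℕ) ≠ p) {B : Type*} [AddCommGroup B] (hB : ∀ b : B, p • b = 0) (f : GQ → B)
    (hadd : ∀ i ∈ Iq q, ∀ j ∈ Iq q, f (i * j) = f i + f j)
    (F : IntermediateField ℚ Qb) [FiniteDimensional ℚ F]
    (hF : ∀ u ∈ Iq q, u ∈ F.fixingSubgroup → f u = 0) {w : Qb} (hw : w ^ p = ((q : ℕ) : Qb))
    {σ : GQ} (hσ : σ ∈ Iq q) (hσw : σ w = w) : f σ = 0 := by
  by_contra hne
  obtain ⟨m, -, hm⟩ := LA.exists_separating hB ⊥ (v := f σ) (by simpa using hne)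
  exact hm (tame_zmod p q hqp (fun i => m (f i))
    (fun i hi j hj => by rw [hadd i hi j hj, map_add]) F
    (fun u hu hu' => by rw [hF u hu hu', map_zero]) hw hσ hσw)

end Fermat.Agent.S56.TW
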